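import Mathlib
import Fermat.Agent.S13.XOnlyGen

/-!
# The binary x-only ladder for a general Weierstrass curve

Division-free "multiplication polynomials": for parameters `b₂ b₄ b₆ b₈ x` in a commutative
ring `S` we define a sequence of states `lad n = (X_n, Z_n, X_{n+1}, Z_{n+1})` by the binary
ladder (duplication + differential addition with difference the base point).

Main result (`rep_lad`): over a field, for EVERY affine nonsingular point `P = (x₀, y₀)` of a
Weierstrass curve `W` and every `n`, the pair `(X_n : Z_n)` evaluated with `x = x₀` represents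
the abscissa of `n • P`:  `Z_n = 0 ↔ n • P = 0`, `(X_n, Z_n) ≠ (0, 0)`, and
`xc (n • P) * Z_n = X_n` if `n • P ≠ 0`.  No exceptional points.
-/

set_option autoImplicit false

namespace Fermat.Agent.S13.DP.Ladder

open Fermat.Agent.S13.XOnlyGen

/-- parameters of the x-only ladder: the `b`-invariants and the abscissa of the base point. -/
structure Params (S : Type*) where
  b₂ : S
  b₄ : S
  b₆ : S
  b₈ : S
  x : S

/-- a ladder state `(X_n, Z_n, X_{n+1}, Z_{n+1})`. -/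
structure State (S : Type*) where
  X₁ : S
  Z₁ : S
  X₂ : S
  Z₂ : S

section generic

variable {S : Type*} [CommRing S] (p : Params S)

/-- numerator of the duplication formula (homogenised). -/
def dblX (a b : S) : S :=
  a ^ 4 - p.b₄ * a ^ 2 * b ^ 2 - 2 * p.b₆ * a * b ^ 3 - p.b₈ * b ^ 4

/-- denominator of the duplication formula (homogenised). -/
def dblZ (a b : S) : S :=
  b * (4 * a ^ 3 + p.b₂ * a ^ 2 * b + 2 * p.b₄ * a * b ^ 2 + p.b₆ * b ^ 3)

/-- denominator of the differential addition. -/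
def addZ (a₁ c₁ a₂ c₂ : S) : S := (a₁ * c₂ - a₂ * c₁) ^ 2

/-- numerator of the differential addition (difference = base point, abscissa `p.x`). -/
def addX (a₁ c₁ a₂ c₂ : S) : S :=
  2 * (a₁ * c₂ + a₂ * c₁) * (a₁ * a₂) + p.b₂ * (a₁ * a₂) * (c₁ * c₂) +
    p.b₄ * (a₁ * c₂ + a₂ * c₁) * (c₁ * c₂) + p.b₆ * (c₁ * c₂) ^ 2 -
    p.x * (a₁ * c₂ - a₂ * c₁) ^ 2

/-- one ladder step: from `(n, n+1)` to `(2n, 2n+1)` (`false`) or `(2n+1, 2n+2)` (`true`). -/
def step (b : Bool) (v : State S) : State S :=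
  match b with
  | false => ⟨dblX p v.X₁ v.Z₁, dblZ p v.X₁ v.Z₁,
      addX p v.X₁ v.Z₁ v.X₂ v.Z₂, addZ v.X₁ v.Z₁ v.X₂ v.Z₂⟩
  | true => ⟨addX p v.X₁ v.Z₁ v.X₂ v.Z₂, addZ v.X₁ v.Z₁ v.X₂ v.Z₂,
      dblX p v.X₂ v.Z₂, dblZ p v.X₂ v.Z₂⟩

/-- the initial state `(0, 1)`: `(1 : 0)` and `(x : 1)`. -/
def base : State S := ⟨1, 0, p.x, 1⟩

/-- the ladder. -/
def lad (n : ℕ) : State S :=
  Nat.binaryRec (motive := fun _ => State S) (base p) (fun b _ v => step p b v) n

lemma step_false_base : step p false (base p) = base p := by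
  simp only [step, base, dblX, dblZ, addX, addZ]
  congr 1 <;> ring

@[simp] lemma lad_zero : lad p 0 = base p := rfl

lemma lad_bit (b : Bool) (m : ℕ) : lad p (Nat.bit b m) = step p b (lad p m) :=
  Nat.binaryRec_eq (motive := fun _ => State S) (zero := base p)
    (bit := fun b _ v => step p b v) b m (Or.inl (step_false_base p))

lemma lad_two_mul (m : ℕ) : lad p (2 * m) = step p false (lad p m) := by
  have := lad_bit p false m
  rwa [Nat.bit_false_apply] at this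

lemma lad_two_mul_add_one (m : ℕ) : lad p (2 * m + 1) = step p true (lad p m) := by
  have := lad_bit p true m
  rwa [Nat.bit_true_apply] at this

lemma lad_one : lad p 1 = step p true (base p) := by
  have := lad_two_mul_add_one p 0
  simpa using this

end generic

section maps

variable {S S' : Type*} [CommRing S] [CommRing S'] (φ : S →+* S')

/-- push parameters along a ring homomorphism. -/
def Params.map (p : Params S) : Params S' := ⟨φ p.b₂, φ p.b₄, φ p.b₆, φ p.b₈, φ p.x⟩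

/-- push a state along a ring homomorphism. -/
def State.map (v : State S) : State S' := ⟨φ v.X₁, φ v.Z₁, φ v.X₂, φ v.Z₂⟩

variable (p : Params S)

lemma map_dblX (a b : S) : φ (dblX p a b) = dblX (p.map φ) (φ a) (φ b) := by
  simp [dblX, Params.map, map_ofNat]

lemma map_dblZ (a b : S) : φ (dblZ p a b) = dblZ (p.map φ) (φ a) (φ b) := by
  simp [dblZ, Params.map, map_ofNat]

lemma map_addZ (a₁ c₁ a₂ c₂ : S) : φ (addZ a₁ c₁ a₂ c₂) = addZ (φ a₁) (φ c₁) (φ a₂) (φ c₂) := by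
  simp [addZ]

lemma map_addX (a₁ c₁ a₂ c₂ : S) :
    φ (addX p a₁ c₁ a₂ c₂) = addX (p.map φ) (φ a₁) (φ c₁) (φ a₂) (φ c₂) := by
  simp [addX, Params.map, map_ofNat]

lemma map_step (b : Bool) (v : State S) :
    (step p b v).map φ = step (p.map φ) b (v.map φ) := by
  cases b <;> simp [step, State.map, map_dblX, map_dblZ, map_addX, map_addZ]

lemma map_base : (base p).map φ = base (p.map φ) := by
  simp [base, State.map, Params.map]

lemma map_lad (n : ℕ) : (lad p n).map φ = lad (p.map φ) n := by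
  induction n using Nat.binaryRec with
  | zero => simp [map_base]
  | bit b m ih => rw [lad_bit, lad_bit, map_step, ih]

end maps

section field

variable {K : Type*} [Field K] [DecidableEq K] {W : WeierstrassCurve K}

/-- parameters attached to a Weierstrass curve and an abscissa. -/
def par (W : WeierstrassCurve K) (x₀ : K) : Params K := ⟨W.b₂, W.b₄, W.b₆, W.b₈, x₀⟩

/-- `(a : b)` represents the abscissa of `Q` (with `(a : 0)`, `a ≠ 0`, for `Q = 0`). -/
def Rep (Q : W.toAffine.Point) (a b : K) : Prop :=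
  (Q = 0 → b = 0 ∧ a ≠ 0) ∧ (Q ≠ 0 → b ≠ 0 ∧ xc Q * b = a)

omit [DecidableEq K] in
lemma Rep.ne_zero {Q : W.toAffine.Point} {a b : K} (h : Rep Q a b) : a ≠ 0 ∨ b ≠ 0 := by
  by_cases hQ : Q = 0
  · exact Or.inl (h.1 hQ).2
  · exact Or.inr (h.2 hQ).1

omit [DecidableEq K] in
lemma Rep.eq_zero_iff {Q : W.toAffine.Point} {a b : K} (h : Rep Q a b) : b = 0 ↔ Q = 0 := by
  constructor
  · intro hb
    by_contra hQ
    exact (h.2 hQ).1 hb
  · intro hQ
    exact (h.1 hQ).1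

omit [DecidableEq K] in
/-- at a nonsingular point with `2y + a₁x + a₃ = 0`, the duplication numerator is nonzero. -/
lemma dbl_num_ne_zero {x y : K} (h : W.toAffine.Nonsingular x y)
    (hy : 2 * y + W.a₁ * x + W.a₃ = 0) :
    x ^ 4 - W.b₄ * x ^ 2 - 2 * W.b₆ * x - W.b₈ ≠ 0 := by
  have e := (WeierstrassCurve.Affine.equation_iff x y).mp h.1
  have hns := (WeierstrassCurve.Affine.nonsingular_iff x y).mp h
  have hN : W.a₁ * y - (3 * x ^ 2 + 2 * W.a₂ * x + W.a₄) ≠ 0 := by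
    rcases hns.2 with h1 | h2
    · exact sub_ne_zero.mpr h1
    · exfalso
      apply h2
      linear_combination hy
  have key : x ^ 4 - W.b₄ * x ^ 2 - 2 * W.b₆ * x - W.b₈ =
      (W.a₁ * y - (3 * x ^ 2 + 2 * W.a₂ * x + W.a₄)) ^ 2 := by
    simp only [WeierstrassCurve.b₄, WeierstrassCurve.b₆, WeierstrassCurve.b₈]
    have hy' : W.a₃ = -(2 * y + W.a₁ * x) := by linear_combination hy
    rw [hy'] at e ⊢
    linear_combination (8 * x + W.a₁ ^ 2 + 4 * W.a₂) * e
  rw [key]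
  exact pow_ne_zero 2 hN


omit [DecidableEq K] in
lemma dblZ_par (x₀ x b : K) :
    dblZ (par W x₀) (x * b) b =
      b ^ 4 * (4 * x ^ 3 + W.b₂ * x ^ 2 + 2 * W.b₄ * x + W.b₆) := by
  simp only [dblZ, par]; ring

omit [DecidableEq K] in
lemma dblX_par (x₀ x b : K) :
    dblX (par W x₀) (x * b) b =
      b ^ 4 * (x ^ 4 - W.b₄ * x ^ 2 - 2 * W.b₆ * x - W.b₈) := by
  simp only [dblX, par]; ring

/-- duplication preserves representations (no exceptional cases). -/
lemma rep_dbl (x₀ : K) {Q : W.toAffine.Point} {a b : K} (h : Rep Q a b) :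
    Rep (Q + Q) (dblX (par W x₀) a b) (dblZ (par W x₀) a b) := by
  by_cases hQ : Q = 0
  · obtain ⟨hb, ha⟩ := h.1 hQ
    subst hQ
    subst hb
    refine ⟨fun _ => ⟨by simp [dblZ], ?_⟩, fun h0 => absurd (by simp) h0⟩
    simp only [dblX]
    simpa using pow_ne_zero 4 ha
  · obtain ⟨hb, hx⟩ := h.2 hQ
    have hpoly := two_torsion_poly (nonsingular_xc_yc hQ).1
    rw [← hx, dblZ_par, dblX_par]
    by_cases hy : 2 * yc Q + W.a₁ * xc Q + W.a₃ = 0
    · have h2 : Q + Q = 0 := (add_self_eq_zero_iff hQ).mpr hy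
      have hnum := dbl_num_ne_zero (nonsingular_xc_yc hQ) hy
      refine ⟨fun _ => ⟨?_, ?_⟩, fun h0 => absurd h2 h0⟩
      · rw [← hpoly, hy]; ring
      · exact mul_ne_zero (pow_ne_zero 4 hb) hnum
    · obtain ⟨h2, hform⟩ := xc_add_self hQ hy
      have hΨ : 4 * xc Q ^ 3 + W.b₂ * xc Q ^ 2 + 2 * W.b₄ * xc Q + W.b₆ ≠ 0 := by
        rw [← hpoly]; exact pow_ne_zero 2 hy
      refine ⟨fun h0 => absurd h0 h2, fun _ => ⟨mul_ne_zero (pow_ne_zero 4 hb) hΨ, ?_⟩⟩
      linear_combination b ^ 4 * hform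

omit [DecidableEq K] in
lemma addZ_par (x₁ c₁ x₂ c₂ : K) :
    addZ (x₁ * c₁) c₁ (x₂ * c₂) c₂ = (c₁ * c₂) ^ 2 * (x₁ - x₂) ^ 2 := by
  simp only [addZ]; ring

omit [DecidableEq K] in
lemma addX_par (x₀ x₁ c₁ x₂ c₂ : K) :
    addX (par W x₀) (x₁ * c₁) c₁ (x₂ * c₂) c₂ =
      (c₁ * c₂) ^ 2 * (2 * x₁ * x₂ * (x₁ + x₂) + W.b₂ * x₁ * x₂ + W.b₄ * (x₁ + x₂) + W.b₆
        - x₀ * (x₁ - x₂) ^ 2) := by
  simp only [addX, par]; ring

/-- differential addition preserves representations (no exceptional cases):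
`Q₂ - Q₁ = P` is the (affine) base point. -/
lemma rep_add {P Q₁ Q₂ : W.toAffine.Point} (hP : P ≠ 0) (hd : Q₂ - Q₁ = P)
    {a₁ c₁ a₂ c₂ : K} (h₁ : Rep Q₁ a₁ c₁) (h₂ : Rep Q₂ a₂ c₂) :
    Rep (Q₁ + Q₂) (addX (par W (xc P)) a₁ c₁ a₂ c₂) (addZ a₁ c₁ a₂ c₂) := by
  by_cases hQ₁ : Q₁ = 0
  · -- `Q₂ = P`
    obtain ⟨hc₁, ha₁⟩ := h₁.1 hQ₁
    subst hQ₁
    have hQ₂ : Q₂ = P := by simpa using hd
    subst hQ₂
    obtain ⟨hc₂, hx₂⟩ := h₂.2 hP
    subst hc₁
    rw [zero_add]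
    refine ⟨fun h0 => absurd h0 hP, fun _ => ⟨?_, ?_⟩⟩
    · simp only [addZ]
      simpa using mul_ne_zero ha₁ hc₂
    · simp only [addX, addZ, par]
      linear_combination (2 * a₁ ^ 2 * c₂) * hx₂
  by_cases hQ₂ : Q₂ = 0
  · -- `Q₁ = -P`
    obtain ⟨hc₂, ha₂⟩ := h₂.1 hQ₂
    subst hQ₂
    have hQ₁' : Q₁ = -P := by
      have : -Q₁ = P := by simpa using hd
      rw [← this, neg_neg]
    obtain ⟨hc₁, hx₁⟩ := h₁.2 hQ₁
    subst hc₂
    rw [add_zero]
    have hxc : xc Q₁ = xc P := by rw [hQ₁', xc_neg]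
    refine ⟨fun h0 => absurd h0 hQ₁, fun _ => ⟨?_, ?_⟩⟩
    · simp only [addZ]
      simpa using mul_ne_zero ha₂ hc₁
    · simp only [addX, addZ, par]
      rw [← hxc]
      linear_combination (2 * a₂ ^ 2 * c₁) * hx₁
  · obtain ⟨hc₁, hx₁⟩ := h₁.2 hQ₁
    obtain ⟨hc₂, hx₂⟩ := h₂.2 hQ₂
    rw [← hx₁, ← hx₂, addZ_par, addX_par]
    have hcc : (c₁ * c₂) ^ 2 ≠ 0 := pow_ne_zero 2 (mul_ne_zero hc₁ hc₂)
    by_cases hx : xc Q₂ = xc Q₁
    · -- `Q₂ = -Q₁`
      have hneg : Q₂ = -Q₁ := by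
        rcases eq_or_eq_neg_of_xc_eq hQ₂ hQ₁ hx with h | h
        · exfalso
          apply hP
          rw [← hd, h, sub_self]
        · exact h
      have hsum : Q₁ + Q₂ = 0 := by rw [hneg, add_neg_cancel]
      have h2 : Q₂ + Q₂ ≠ 0 := by
        intro h0
        apply hP
        rw [← hd]
        have : Q₁ = -Q₂ := by rw [hneg, neg_neg]
        rw [this, sub_neg_eq_add, h0]
      have hy : 2 * yc Q₂ + W.a₁ * xc Q₂ + W.a₃ ≠ 0 := fun h0 =>
        h2 ((add_self_eq_zero_iff hQ₂).mpr h0)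
      have hpoly := two_torsion_poly (nonsingular_xc_yc hQ₂).1
      refine ⟨fun _ => ⟨?_, ?_⟩, fun h0 => absurd hsum h0⟩
      · rw [hx]; ring
      · rw [← hx]
        have : 2 * xc Q₂ * xc Q₂ * (xc Q₂ + xc Q₂) + W.b₂ * xc Q₂ * xc Q₂ +
            W.b₄ * (xc Q₂ + xc Q₂) + W.b₆ - xc P * (xc Q₂ - xc Q₂) ^ 2 =
            (2 * yc Q₂ + W.a₁ * xc Q₂ + W.a₃) ^ 2 := by
          rw [hpoly]; ring
        rw [this]
        exact mul_ne_zero hcc (pow_ne_zero 2 hy)
    · obtain ⟨hs, hm, hsum, _⟩ := xc_add_sub hQ₂ hQ₁ hx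
      have hne : xc Q₁ - xc Q₂ ≠ 0 := sub_ne_zero.mpr (Ne.symm hx)
      rw [hd] at hsum
      have hcomm : Q₁ + Q₂ = Q₂ + Q₁ := add_comm _ _
      refine ⟨fun h0 => absurd (hcomm ▸ h0) hs, fun _ => ⟨mul_ne_zero hcc (pow_ne_zero 2 hne), ?_⟩⟩
      rw [hcomm]
      linear_combination (c₁ * c₂) ^ 2 * hsum

/-- **Completeness of the ladder**: for every affine point `P` and every `n`, the ladder state
at `n` (with abscissa parameter `xc P`) represents `n • P` and `(n + 1) • P`. -/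
theorem rep_lad {P : W.toAffine.Point} (hP : P ≠ 0) (n : ℕ) :
    Rep (n • P) (lad (par W (xc P)) n).X₁ (lad (par W (xc P)) n).Z₁ ∧
      Rep ((n + 1) • P) (lad (par W (xc P)) n).X₂ (lad (par W (xc P)) n).Z₂ := by
  induction n using Nat.binaryRec with
  | zero =>
    refine ⟨?_, ?_⟩
    · simp only [lad_zero, base, zero_smul]
      exact ⟨fun _ => ⟨rfl, one_ne_zero⟩, fun h => absurd rfl h⟩
    · simp only [lad_zero, base, zero_add, one_smul]
      exact ⟨fun h => absurd h hP, fun _ => ⟨one_ne_zero, by simp [par]⟩⟩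
  | bit b m ih =>
    obtain ⟨ih₁, ih₂⟩ := ih
    have hd : (m + 1) • P - m • P = P := by rw [add_smul, one_smul, add_sub_cancel_left]
    rw [lad_bit]
    cases b
    · -- `n = 2m`
      simp only [step, Nat.bit_false_apply]
      refine ⟨?_, ?_⟩
      · have := rep_dbl (xc P) ih₁
        rwa [← add_smul, ← two_mul] at this
      · have := rep_add hP hd ih₁ ih₂
        rwa [← add_smul, show m + (m + 1) = 2 * m + 1 by ring] at this
    · -- `n = 2m + 1`
      simp only [step, Nat.bit_true_apply]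
      refine ⟨?_, ?_⟩
      · have := rep_add hP hd ih₁ ih₂
        rwa [← add_smul, show m + (m + 1) = 2 * m + 1 by ring] at this
      · have := rep_dbl (xc P) ih₂
        rwa [← add_smul, show m + 1 + (m + 1) = 2 * m + 1 + 1 by ring] at this

/-- consumer form: the `Z`-coordinate vanishes iff `n • P = 0`. -/
theorem ladZ_eq_zero_iff {P : W.toAffine.Point} (hP : P ≠ 0) (n : ℕ) :
    (lad (par W (xc P)) n).Z₁ = 0 ↔ n • P = 0 :=
  (rep_lad hP n).1.eq_zero_iff

/-- consumer form: the abscissa of `n • P`. -/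
theorem xc_nsmul_mul_ladZ {P : W.toAffine.Point} (hP : P ≠ 0) (n : ℕ) (hn : n • P ≠ 0) :
    xc (n • P) * (lad (par W (xc P)) n).Z₁ = (lad (par W (xc P)) n).X₁ :=
  ((rep_lad hP n).1.2 hn).2

/-- consumer form: numerator and denominator never vanish together. -/
theorem ladX_ne_zero_or_ladZ_ne_zero {P : W.toAffine.Point} (hP : P ≠ 0) (n : ℕ) :
    (lad (par W (xc P)) n).X₁ ≠ 0 ∨ (lad (par W (xc P)) n).Z₁ ≠ 0 :=
  (rep_lad hP n).1.ne_zero

end field

end Fermat.Agent.S13.DP.Ladder
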