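import Mathlib
import Fermat.Agent.S13.DP.Ladder

/-!
# Degrees and leading coefficients of the ladder polynomials

For parameters `⟨C b₂, C b₄, C b₆, C b₈, X⟩` in `R[X]` (any commutative ring `R`), the ladder
polynomials satisfy: `X_n` has `natDegree ≤ n²` and coefficient `1` at `n²`; for `n ≥ 1`,
`Z_n` has `natDegree ≤ n² - 1` and coefficient `n²` at `n² - 1`; `Z_0 = 0`;
`D_n := X_n Z_{n+1} - X_{n+1} Z_n` has `natDegree ≤ n² + (n+1)² - 1` with coefficient `2n+1`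
there, and `Z_{2n+1} = D_n²`.
-/

set_option autoImplicit false

namespace Fermat.Agent.S13.DP.LadderDeg

open Polynomial Fermat.Agent.S13.DP.Ladder

variable {R : Type*} [CommRing R]

/-- `f` has degree at most `d` and coefficient `c` in degree `d`. -/
def IsLead (f : R[X]) (d : ℕ) (c : R) : Prop := f.natDegree ≤ d ∧ f.coeff d = c

namespace IsLead

variable {f g : R[X]} {d e : ℕ} {c c' : R}

lemma congr' (h : IsLead f d c) (hf : f = g) (hd : d = e) (hc : c = c') : IsLead g e c' := by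
  subst hf; subst hd; subst hc; exact h

lemma mul (hf : IsLead f d c) (hg : IsLead g e c') : IsLead (f * g) (d + e) (c * c') :=
  ⟨natDegree_mul_le_of_le hf.1 hg.1,
    by rw [coeff_mul_add_eq_of_natDegree_le hf.1 hg.1, hf.2, hg.2]⟩

lemma pow (hf : IsLead f d c) (k : ℕ) : IsLead (f ^ k) (k * d) (c ^ k) :=
  ⟨natDegree_pow_le_of_le k hf.1, by rw [coeff_pow_of_natDegree_le hf.1, hf.2]⟩

lemma add (hf : IsLead f d c) (hg : IsLead g d c') : IsLead (f + g) d (c + c') :=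
  ⟨natDegree_add_le_of_degree_le hf.1 hg.1, by rw [coeff_add, hf.2, hg.2]⟩

lemma sub (hf : IsLead f d c) (hg : IsLead g d c') : IsLead (f - g) d (c - c') :=
  ⟨(natDegree_sub_le_of_le hf.1 hg.1).trans (by simp), by rw [coeff_sub, hf.2, hg.2]⟩

lemma weaken (hf : IsLead f d c) (h : d < e) : IsLead f e 0 :=
  ⟨hf.1.trans h.le, coeff_eq_zero_of_natDegree_lt (lt_of_le_of_lt hf.1 h)⟩

lemma const (r : R) : IsLead (C r) 0 r := ⟨by simp, by simp⟩

lemma one : IsLead (1 : R[X]) 0 1 := ⟨by simp, by simp⟩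

lemma zero (d : ℕ) : IsLead (0 : R[X]) d 0 := ⟨by simp, by simp⟩

lemma var : IsLead (X : R[X]) 1 1 := ⟨natDegree_X_le, by simp⟩

lemma two : IsLead (2 : R[X]) 0 2 := by
  have h : (2 : R[X]) = C 2 := (map_ofNat C 2).symm
  rw [h]; exact const 2

lemma four : IsLead (4 : R[X]) 0 4 := by
  have h : (4 : R[X]) = C 4 := (map_ofNat C 4).symm
  rw [h]; exact const 4

end IsLead

variable (b₂ b₄ b₆ b₈ : R)

/-- the polynomial parameters. -/
noncomputable def polyPar : Params R[X] := ⟨C b₂, C b₄, C b₆, C b₈, X⟩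

variable {b₂ b₄ b₆ b₈}

lemma lead_dblX {a b : R[X]} {d : ℕ} {c : R} (ha : IsLead a (d + 1) 1) (hb : IsLead b d c) :
    IsLead (dblX (polyPar b₂ b₄ b₆ b₈) a b) (4 * (d + 1)) 1 := by
  have t1 := ha.pow 4
  have t2 := (((IsLead.const b₄).mul (ha.pow 2)).mul (hb.pow 2)).weaken
    (e := 4 * (d + 1)) (by omega)
  have t3 := (((IsLead.two.mul (IsLead.const b₆)).mul ha).mul (hb.pow 3)).weaken
    (e := 4 * (d + 1)) (by omega)
  have t4 := ((IsLead.const b₈).mul (hb.pow 4)).weaken (e := 4 * (d + 1)) (by omega)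
  exact (((t1.sub t2).sub t3).sub t4).congr' (by simp only [dblX, polyPar]) rfl (by simp)

lemma lead_dblZ {a b : R[X]} {d : ℕ} {c : R} (ha : IsLead a (d + 1) 1) (hb : IsLead b d c) :
    IsLead (dblZ (polyPar b₂ b₄ b₆ b₈) a b) (4 * d + 3) (4 * c) := by
  have t1 := IsLead.four.mul (ha.pow 3)
  have t2 := (((IsLead.const b₂).mul (ha.pow 2)).mul hb).weaken
    (e := 0 + 3 * (d + 1)) (by omega)
  have t3 := (((IsLead.two.mul (IsLead.const b₄)).mul ha).mul (hb.pow 2)).weaken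
    (e := 0 + 3 * (d + 1)) (by omega)
  have t4 := ((IsLead.const b₆).mul (hb.pow 3)).weaken (e := 0 + 3 * (d + 1)) (by omega)
  exact (hb.mul (((t1.add t2).add t3).add t4)).congr' (by simp only [dblZ, polyPar])
    (by omega) (by simp; ring)

lemma lead_sub_cross {a₁ c₁ a₂ c₂ : R[X]} {d₁ d₂ : ℕ} {k₁ k₂ : R}
    (ha₁ : IsLead a₁ (d₁ + 1) 1) (hc₁ : IsLead c₁ d₁ k₁)
    (ha₂ : IsLead a₂ (d₂ + 1) 1) (hc₂ : IsLead c₂ d₂ k₂) :
    IsLead (a₁ * c₂ - a₂ * c₁) (d₁ + d₂ + 1) (k₂ - k₁) :=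
  ((ha₁.mul hc₂).congr' rfl (by omega) rfl |>.sub
    ((ha₂.mul hc₁).congr' rfl (by omega) rfl)).congr' rfl rfl (by simp)

lemma lead_add_cross {a₁ c₁ a₂ c₂ : R[X]} {d₁ d₂ : ℕ} {k₁ k₂ : R}
    (ha₁ : IsLead a₁ (d₁ + 1) 1) (hc₁ : IsLead c₁ d₁ k₁)
    (ha₂ : IsLead a₂ (d₂ + 1) 1) (hc₂ : IsLead c₂ d₂ k₂) :
    IsLead (a₁ * c₂ + a₂ * c₁) (d₁ + d₂ + 1) (k₂ + k₁) :=
  ((ha₁.mul hc₂).congr' rfl (by omega) rfl |>.add
    ((ha₂.mul hc₁).congr' rfl (by omega) rfl)).congr' rfl rfl (by simp)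

lemma lead_addZ {a₁ c₁ a₂ c₂ : R[X]} {d₁ d₂ : ℕ} {k₁ k₂ : R}
    (ha₁ : IsLead a₁ (d₁ + 1) 1) (hc₁ : IsLead c₁ d₁ k₁)
    (ha₂ : IsLead a₂ (d₂ + 1) 1) (hc₂ : IsLead c₂ d₂ k₂) :
    IsLead (addZ a₁ c₁ a₂ c₂) (2 * (d₁ + d₂ + 1)) ((k₂ - k₁) ^ 2) :=
  ((lead_sub_cross ha₁ hc₁ ha₂ hc₂).pow 2).congr' (by simp only [addZ]) rfl rfl

lemma lead_addX {a₁ c₁ a₂ c₂ : R[X]} {d₁ d₂ : ℕ} {k₁ k₂ : R}
    (ha₁ : IsLead a₁ (d₁ + 1) 1) (hc₁ : IsLead c₁ d₁ k₁)
    (ha₂ : IsLead a₂ (d₂ + 1) 1) (hc₂ : IsLead c₂ d₂ k₂) :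
    IsLead (addX (polyPar b₂ b₄ b₆ b₈) a₁ c₁ a₂ c₂) (2 * d₁ + 2 * d₂ + 3)
      (2 * (k₁ + k₂) - (k₂ - k₁) ^ 2) := by
  have hs := lead_add_cross ha₁ hc₁ ha₂ hc₂
  have hm := lead_sub_cross ha₁ hc₁ ha₂ hc₂
  have haa := ha₁.mul ha₂
  have hcc := hc₁.mul hc₂
  have t1 := ((IsLead.two.mul hs).mul haa).congr' rfl
    (show 0 + (d₁ + d₂ + 1) + (d₁ + 1 + (d₂ + 1)) = 2 * d₁ + 2 * d₂ + 3 by omega) rfl
  have t2 := (((IsLead.const b₂).mul haa).mul hcc).weaken (e := 2 * d₁ + 2 * d₂ + 3) (by omega)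
  have t3 := (((IsLead.const b₄).mul hs).mul hcc).weaken (e := 2 * d₁ + 2 * d₂ + 3) (by omega)
  have t4 := ((IsLead.const b₆).mul (hcc.pow 2)).weaken (e := 2 * d₁ + 2 * d₂ + 3) (by omega)
  have t5 := (IsLead.var.mul (hm.pow 2)).congr' rfl
    (show 1 + 2 * (d₁ + d₂ + 1) = 2 * d₁ + 2 * d₂ + 3 by omega) rfl
  exact ((((t1.add t2).add t3).add t4).sub t5).congr' (by simp only [addX, polyPar]) rfl
    (by simp; ring)


variable (b₂ b₄ b₆ b₈)

/-- the polynomial ladder. -/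
noncomputable def ladP (n : ℕ) : State R[X] := lad (polyPar b₂ b₄ b₆ b₈) n

/-- the cross polynomial `D_n = X_n Z_{n+1} - X_{n+1} Z_n`. -/
noncomputable def ladD (n : ℕ) : R[X] :=
  (ladP b₂ b₄ b₆ b₈ n).X₁ * (ladP b₂ b₄ b₆ b₈ n).Z₂ -
    (ladP b₂ b₄ b₆ b₈ n).X₂ * (ladP b₂ b₄ b₆ b₈ n).Z₁

/-- `Z_{2n+1} = D_n²`. -/
lemma ladP_odd_Z (n : ℕ) : (ladP b₂ b₄ b₆ b₈ (2 * n + 1)).Z₁ = ladD b₂ b₄ b₆ b₈ n ^ 2 := by
  simp only [ladP, ladD, lad_two_mul_add_one, step, addZ]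

/-- degree/leading-coefficient invariant of a ladder state at `n`. -/
structure Inv (n : ℕ) (s : State R[X]) : Prop where
  X₁ : IsLead s.X₁ (n ^ 2) 1
  Z₁z : n = 0 → s.Z₁ = 0
  Z₁ : ∀ d, n ^ 2 = d + 1 → IsLead s.Z₁ d ((n : R) ^ 2)
  X₂ : IsLead s.X₂ ((n + 1) ^ 2) 1
  Z₂ : ∀ d, (n + 1) ^ 2 = d + 1 → IsLead s.Z₂ d (((n : R) + 1) ^ 2)

lemma inv_base : Inv 0 (base (polyPar b₂ b₄ b₆ b₈)) where
  X₁ := IsLead.one.congr' rfl (by norm_num) rfl
  Z₁z := fun _ => rfl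
  Z₁ := fun d h => by norm_num at h
  X₂ := IsLead.var.congr' rfl (by norm_num) rfl
  Z₂ := fun d h => by
    have hd : d = 0 := by norm_num at h; omega
    subst hd
    exact IsLead.one.congr' rfl rfl (by norm_num)

lemma inv_one : Inv 1 (step (polyPar b₂ b₄ b₆ b₈) true (base (polyPar b₂ b₄ b₆ b₈))) := by
  have hX : IsLead (X : R[X]) (0 + 1) 1 := IsLead.var
  have h1 : IsLead (1 : R[X]) 0 1 := IsLead.one
  have e1 : addX (polyPar b₂ b₄ b₆ b₈) 1 0 X 1 = X := by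
    simp only [addX, polyPar]; ring
  have e2 : addZ (1 : R[X]) 0 X 1 = 1 := by simp only [addZ]; ring
  refine ⟨?_, ?_, ?_, ?_, ?_⟩
  · simp only [step, base, polyPar] at *
    rw [e1]; exact IsLead.var.congr' rfl (by norm_num) rfl
  · intro h; exact absurd h one_ne_zero
  · intro d h
    have hd : d = 0 := by norm_num at h; omega
    subst hd
    simp only [step, base, polyPar] at *
    rw [e2]; exact IsLead.one.congr' rfl rfl (by norm_num)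
  · simp only [step, base]
    exact (lead_dblX hX h1).congr' rfl (by norm_num) rfl
  · intro d h
    have hd : d = 4 * 0 + 3 := by norm_num at h; omega
    subst hd
    simp only [step, base]
    exact (lead_dblZ hX h1).congr' rfl rfl (by norm_num)

lemma inv_step {m : ℕ} (hm : 0 < m) {s : State R[X]} (h : Inv m s) (b : Bool) :
    Inv (Nat.bit b m) (step (polyPar b₂ b₄ b₆ b₈) b s) := by
  obtain ⟨d₁, hd₁⟩ : ∃ d, m ^ 2 = d + 1 := ⟨m ^ 2 - 1, by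
    have : 0 < m ^ 2 := by positivity
    omega⟩
  obtain ⟨d₂, hd₂⟩ : ∃ d, (m + 1) ^ 2 = d + 1 := ⟨(m + 1) ^ 2 - 1, by
    have : 0 < (m + 1) ^ 2 := by positivity
    omega⟩
  have hd₂' : d₂ = d₁ + 2 * m + 1 := by
    have : (m + 1) ^ 2 = m ^ 2 + 2 * m + 1 := by ring
    omega
  have ha₁ : IsLead s.X₁ (d₁ + 1) 1 := h.X₁.congr' rfl hd₁ rfl
  have hc₁ := h.Z₁ d₁ hd₁
  have ha₂ : IsLead s.X₂ (d₂ + 1) 1 := h.X₂.congr' rfl hd₂ rfl
  have hc₂ := h.Z₂ d₂ hd₂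
  have hmne : Nat.bit b m ≠ 0 := by
    cases b <;> simp [Nat.bit] <;> omega
  cases b
  · -- `n = 2m`
    have e4 : (Nat.bit false m) ^ 2 = 4 * (d₁ + 1) := by
      rw [Nat.bit_false_apply, ← hd₁]; ring
    have e5 : (Nat.bit false m + 1) ^ 2 = 2 * d₁ + 2 * d₂ + 3 := by
      rw [Nat.bit_false_apply]
      have : (2 * m + 1) ^ 2 = 4 * m ^ 2 + 4 * m + 1 := by ring
      omega
    have ecast : ((Nat.bit false m : ℕ) : R) = 2 * (m : R) := by
      rw [Nat.bit_false_apply]; push_cast; ring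
    refine ⟨?_, fun h0 => absurd h0 hmne, ?_, ?_, ?_⟩
    · simp only [step]
      exact (lead_dblX ha₁ hc₁).congr' rfl e4.symm rfl
    · intro d hd
      have : d = 4 * d₁ + 3 := by have := hd.symm.trans e4; omega
      subst this
      simp only [step]
      exact (lead_dblZ ha₁ hc₁).congr' rfl rfl (by rw [ecast]; ring)
    · simp only [step]
      refine (lead_addX ha₁ hc₁ ha₂ hc₂).congr' rfl e5.symm ?_
      ring
    · intro d hd
      have : d = 2 * (d₁ + d₂ + 1) := by have := hd.symm.trans e5; omega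
      subst this
      simp only [step]
      exact (lead_addZ ha₁ hc₁ ha₂ hc₂).congr' rfl rfl (by rw [ecast]; ring)
  · -- `n = 2m + 1`
    have e4 : (Nat.bit true m) ^ 2 = 2 * d₁ + 2 * d₂ + 3 := by
      rw [Nat.bit_true_apply]
      have : (2 * m + 1) ^ 2 = 4 * m ^ 2 + 4 * m + 1 := by ring
      omega
    have e5 : (Nat.bit true m + 1) ^ 2 = 4 * (d₂ + 1) := by
      rw [Nat.bit_true_apply, ← hd₂]; ring
    have ecast : ((Nat.bit true m : ℕ) : R) = 2 * (m : R) + 1 := by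
      rw [Nat.bit_true_apply]; push_cast; ring
    refine ⟨?_, fun h0 => absurd h0 hmne, ?_, ?_, ?_⟩
    · simp only [step]
      refine (lead_addX ha₁ hc₁ ha₂ hc₂).congr' rfl e4.symm ?_
      ring
    · intro d hd
      have : d = 2 * (d₁ + d₂ + 1) := by have := hd.symm.trans e4; omega
      subst this
      simp only [step]
      exact (lead_addZ ha₁ hc₁ ha₂ hc₂).congr' rfl rfl (by rw [ecast]; ring)
    · simp only [step]
      exact (lead_dblX ha₂ hc₂).congr' rfl e5.symm rfl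
    · intro d hd
      have : d = 4 * d₂ + 3 := by have := hd.symm.trans e5; omega
      subst this
      simp only [step]
      exact (lead_dblZ ha₂ hc₂).congr' rfl rfl (by rw [ecast]; ring)

/-- the degree invariant holds along the polynomial ladder. -/
theorem inv_ladP (n : ℕ) : Inv n (ladP b₂ b₄ b₆ b₈ n) := by
  unfold ladP
  induction n using Nat.binaryRec with
  | zero => exact inv_base b₂ b₄ b₆ b₈
  | bit b m ih =>
    rw [lad_bit]
    rcases Nat.eq_zero_or_pos m with hm | hm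
    · subst hm
      cases b
      · rw [lad_zero, step_false_base]; exact inv_base b₂ b₄ b₆ b₈
      · rw [lad_zero]; exact inv_one b₂ b₄ b₆ b₈
    · exact inv_step b₂ b₄ b₆ b₈ hm ih b

/-- `X_n` has degree at most `n²` and coefficient `1` there. -/
theorem lead_ladX (n : ℕ) : IsLead (ladP b₂ b₄ b₆ b₈ n).X₁ (n ^ 2) 1 := (inv_ladP b₂ b₄ b₆ b₈ n).X₁

/-- `Z_0 = 0`. -/
theorem ladZ_zero : (ladP b₂ b₄ b₆ b₈ 0).Z₁ = 0 := rfl

/-- for `n ≥ 1`, `Z_n` has degree at most `n² - 1` and coefficient `n²` there. -/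
theorem lead_ladZ {n : ℕ} (hn : 0 < n) :
    IsLead (ladP b₂ b₄ b₆ b₈ n).Z₁ (n ^ 2 - 1) ((n : R) ^ 2) :=
  (inv_ladP b₂ b₄ b₆ b₈ n).Z₁ _ (by
    have : 0 < n ^ 2 := by positivity
    omega)

/-- `D_n` has degree at most `2n² + 2n` and coefficient `2n + 1` there. -/
theorem lead_ladD (n : ℕ) :
    IsLead (ladD b₂ b₄ b₆ b₈ n) (2 * n ^ 2 + 2 * n) (2 * (n : R) + 1) := by
  rcases Nat.eq_zero_or_pos n with hn | hn
  · subst hn
    have : ladD b₂ b₄ b₆ b₈ 0 = 1 := by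
      simp only [ladD, ladP, lad_zero, base, polyPar]; ring
    rw [this]
    exact IsLead.one.congr' rfl (by norm_num) (by norm_num)
  · have h := inv_ladP b₂ b₄ b₆ b₈ n
    obtain ⟨d₁, hd₁⟩ : ∃ d, n ^ 2 = d + 1 := ⟨n ^ 2 - 1, by
      have : 0 < n ^ 2 := by positivity
      omega⟩
    obtain ⟨d₂, hd₂⟩ : ∃ d, (n + 1) ^ 2 = d + 1 := ⟨(n + 1) ^ 2 - 1, by
      have : 0 < (n + 1) ^ 2 := by positivity
      omega⟩
    have hd₂' : d₂ = d₁ + 2 * n + 1 := by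
      have : (n + 1) ^ 2 = n ^ 2 + 2 * n + 1 := by ring
      omega
    have ha₁ : IsLead (ladP b₂ b₄ b₆ b₈ n).X₁ (d₁ + 1) 1 := h.X₁.congr' rfl hd₁ rfl
    have hc₁ := h.Z₁ d₁ hd₁
    have ha₂ : IsLead (ladP b₂ b₄ b₆ b₈ n).X₂ (d₂ + 1) 1 := h.X₂.congr' rfl hd₂ rfl
    have hc₂ := h.Z₂ d₂ hd₂
    refine (lead_sub_cross ha₁ hc₁ ha₂ hc₂).congr' rfl (by omega) (by ring)

end Fermat.Agent.S13.DP.LadderDeg
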