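import Mathlib
import Fermat.Agent.S13.DP.LadderDeg

/-!
# Roots of the odd cross polynomial `D_m` = abscissae of the `(2m+1)`-torsion

For a Weierstrass curve `W` over a field `K` and `p = 2m + 1`:
* `isRoot_torD_iff`: for an affine point `P`, `D_m (xc P) = 0 ↔ p • P = 0`;
* `natDegree_torD`, `leadingCoeff_torD` (when `(p : K) ≠ 0`): degree `2m² + 2m = (p² - 1)/2`,
  leading coefficient `p`;
* `coeff_torD_mem`: all coefficients lie in any subring containing the `b`-invariants;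
* `finite_torsion`, `ncard_torsion_le`: `#{T | p • T = 0} ≤ p²`;
* over an algebraically closed field, for an elliptic `W`: `exists_torsion_ne_zero` and
  `isRoot_torD_iff_exists`.
-/

set_option autoImplicit false

namespace Fermat.Agent.S13.DP.LadderRoots

open Polynomial Fermat.Agent.S13.XOnlyGen Fermat.Agent.S13.DP.Ladder Fermat.Agent.S13.DP.LadderDeg

variable {K : Type*} [Field K] (W : WeierstrassCurve K)

/-- the polynomial ladder of `W`. -/
noncomputable def ladW (n : ℕ) : State K[X] := ladP W.b₂ W.b₄ W.b₆ W.b₈ n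

/-- the odd torsion polynomial `D_m = X_m Z_{m+1} - X_{m+1} Z_m` of `W`; its roots are the
abscissae of the nonzero `(2m+1)`-torsion points. -/
noncomputable def torD (m : ℕ) : K[X] := ladD W.b₂ W.b₄ W.b₆ W.b₈ m

lemma polyPar_map_eval (x₀ : K) :
    (polyPar W.b₂ W.b₄ W.b₆ W.b₈).map (evalRingHom x₀) = par W x₀ := by
  simp [Params.map, polyPar, par]

/-- evaluating the polynomial ladder gives the ladder at the point. -/
lemma ladW_map_eval (x₀ : K) (n : ℕ) :
    (ladW W n).map (evalRingHom x₀) = lad (par W x₀) n := by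
  rw [ladW, ladP, map_lad, polyPar_map_eval]

lemma eval_ladW_X₁ (x₀ : K) (n : ℕ) : (ladW W n).X₁.eval x₀ = (lad (par W x₀) n).X₁ := by
  rw [← ladW_map_eval]; rfl

lemma eval_ladW_Z₁ (x₀ : K) (n : ℕ) : (ladW W n).Z₁.eval x₀ = (lad (par W x₀) n).Z₁ := by
  rw [← ladW_map_eval]; rfl

lemma eval_ladW_X₂ (x₀ : K) (n : ℕ) : (ladW W n).X₂.eval x₀ = (lad (par W x₀) n).X₂ := by
  rw [← ladW_map_eval]; rfl

lemma eval_ladW_Z₂ (x₀ : K) (n : ℕ) : (ladW W n).Z₂.eval x₀ = (lad (par W x₀) n).Z₂ := by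
  rw [← ladW_map_eval]; rfl

lemma eval_torD (x₀ : K) (m : ℕ) :
    (torD W m).eval x₀ =
      (lad (par W x₀) m).X₁ * (lad (par W x₀) m).Z₂ -
        (lad (par W x₀) m).X₂ * (lad (par W x₀) m).Z₁ := by
  simp only [torD, ladD, eval_sub, eval_mul]
  rw [← eval_ladW_X₁, ← eval_ladW_Z₁, ← eval_ladW_X₂, ← eval_ladW_Z₂]
  rfl

variable {W}

section point

variable [DecidableEq K]

/-- **Root characterisation**: for an affine point `P`, the abscissa of `P` is a root of `D_m`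
iff `(2m+1) • P = 0`. -/
theorem isRoot_torD_iff {P : W.toAffine.Point} (hP : P ≠ 0) (m : ℕ) :
    (torD W m).IsRoot (xc P) ↔ (2 * m + 1) • P = 0 := by
  rw [IsRoot.def, eval_torD, ← ladZ_eq_zero_iff hP (2 * m + 1), lad_two_mul_add_one]
  simp only [step, addZ]
  exact (sq_eq_zero_iff).symm

/-- abscissa of `n • P` via the polynomial ladder. -/
theorem xc_nsmul_mul_eval {P : W.toAffine.Point} (hP : P ≠ 0) (n : ℕ) (hn : n • P ≠ 0) :
    xc (n • P) * (ladW W n).Z₁.eval (xc P) = (ladW W n).X₁.eval (xc P) := by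
  rw [eval_ladW_X₁, eval_ladW_Z₁]
  exact xc_nsmul_mul_ladZ hP n hn

/-- `n • P = 0` iff the abscissa of `P` is a root of `Z_n`. -/
theorem eval_ladZ_eq_zero_iff {P : W.toAffine.Point} (hP : P ≠ 0) (n : ℕ) :
    (ladW W n).Z₁.eval (xc P) = 0 ↔ n • P = 0 := by
  rw [eval_ladW_Z₁]
  exact ladZ_eq_zero_iff hP n

end point

/-! ### degree and leading coefficient -/

variable (W)

lemma isLead_torD (m : ℕ) : IsLead (torD W m) (2 * m ^ 2 + 2 * m) (2 * (m : K) + 1) :=
  lead_ladD W.b₂ W.b₄ W.b₆ W.b₈ m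

lemma natDegree_torD_le (m : ℕ) : (torD W m).natDegree ≤ 2 * m ^ 2 + 2 * m := (isLead_torD W m).1

lemma coeff_torD (m : ℕ) : (torD W m).coeff (2 * m ^ 2 + 2 * m) = 2 * (m : K) + 1 :=
  (isLead_torD W m).2

variable {W}

lemma cast_ne_zero_iff (m : ℕ) : ((2 * m + 1 : ℕ) : K) ≠ 0 ↔ 2 * (m : K) + 1 ≠ 0 := by
  push_cast; rfl

theorem natDegree_torD {m : ℕ} (hp : ((2 * m + 1 : ℕ) : K) ≠ 0) :
    (torD W m).natDegree = 2 * m ^ 2 + 2 * m := by
  refine le_antisymm (natDegree_torD_le W m) (le_natDegree_of_ne_zero ?_)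
  rw [coeff_torD]
  exact (cast_ne_zero_iff m).mp hp

theorem leadingCoeff_torD {m : ℕ} (hp : ((2 * m + 1 : ℕ) : K) ≠ 0) :
    (torD W m).leadingCoeff = ((2 * m + 1 : ℕ) : K) := by
  rw [leadingCoeff, natDegree_torD hp, coeff_torD]
  push_cast; rfl

theorem torD_ne_zero {m : ℕ} (hp : ((2 * m + 1 : ℕ) : K) ≠ 0) : torD W m ≠ 0 := by
  intro h
  have := coeff_torD W m
  rw [h, coeff_zero] at this
  exact (cast_ne_zero_iff m).mp hp this.symm

/-! ### integrality of the coefficients -/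

/-- all coefficients of the ladder polynomials lie in any subring containing the `b`-invariants. -/
theorem exists_ladP_subring (R₀ : Subring K) (h₂ : W.b₂ ∈ R₀) (h₄ : W.b₄ ∈ R₀) (h₆ : W.b₆ ∈ R₀)
    (h₈ : W.b₈ ∈ R₀) (n : ℕ) :
    (ladP (⟨W.b₂, h₂⟩ : R₀) ⟨W.b₄, h₄⟩ ⟨W.b₆, h₆⟩ ⟨W.b₈, h₈⟩ n).map (mapRingHom R₀.subtype) =
      ladW W n := by
  rw [ladW, ladP, ladP, map_lad]
  congr 1
  simp [Params.map, polyPar]

theorem coeff_torD_mem (R₀ : Subring K) (h₂ : W.b₂ ∈ R₀) (h₄ : W.b₄ ∈ R₀) (h₆ : W.b₆ ∈ R₀)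
    (h₈ : W.b₈ ∈ R₀) (m i : ℕ) : (torD W m).coeff i ∈ R₀ := by
  have h := exists_ladP_subring R₀ h₂ h₄ h₆ h₈ m
  have hD : torD W m =
      (ladD (⟨W.b₂, h₂⟩ : R₀) ⟨W.b₄, h₄⟩ ⟨W.b₆, h₆⟩ ⟨W.b₈, h₈⟩ m).map R₀.subtype := by
    rw [torD, ladD, ladD, Polynomial.map_sub, Polynomial.map_mul, Polynomial.map_mul]
    have e := congrArg State.X₁ h
    have e' := congrArg State.Z₁ h
    have e'' := congrArg State.X₂ h
    have e''' := congrArg State.Z₂ h
    simp only [State.map, coe_mapRingHom, ladW] at e e' e'' e'''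
    rw [e, e', e'', e''']
  rw [hD, coeff_map]
  exact SetLike.coe_mem _

theorem coeff_ladW_mem (R₀ : Subring K) (h₂ : W.b₂ ∈ R₀) (h₄ : W.b₄ ∈ R₀) (h₆ : W.b₆ ∈ R₀)
    (h₈ : W.b₈ ∈ R₀) (n i : ℕ) :
    (ladW W n).X₁.coeff i ∈ R₀ ∧ (ladW W n).Z₁.coeff i ∈ R₀ := by
  have h := exists_ladP_subring R₀ h₂ h₄ h₆ h₈ n
  have e := congrArg State.X₁ h
  have e' := congrArg State.Z₁ h
  simp only [State.map, coe_mapRingHom] at e e'
  rw [← e, ← e', coeff_map, coeff_map]
  exact ⟨SetLike.coe_mem _, SetLike.coe_mem _⟩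

/-! ### counting torsion points -/

section count

variable [DecidableEq K]

omit [DecidableEq K] in
/-- the fibre of `xc` over any value, among nonzero points, is contained in a pair `{T₀, -T₀}`. -/
lemma exists_fibre_subset (r : K) :
    ∃ T₀ : W.toAffine.Point, ∀ T : W.toAffine.Point, T ≠ 0 → xc T = r → T = T₀ ∨ T = -T₀ := by
  by_cases h : ∃ T₀ : W.toAffine.Point, T₀ ≠ 0 ∧ xc T₀ = r
  · obtain ⟨T₀, hT₀, hr⟩ := h
    exact ⟨T₀, fun T hT hx => eq_or_eq_neg_of_xc_eq hT hT₀ (hx.trans hr.symm)⟩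
  · exact ⟨0, fun T hT hx => absurd ⟨T, hT, hx⟩ h⟩

/-- the `(2m+1)`-torsion is finite. -/
theorem finite_torsion {m : ℕ} (hp : ((2 * m + 1 : ℕ) : K) ≠ 0) :
    {T : W.toAffine.Point | (2 * m + 1) • T = 0}.Finite := by
  classical
  have hD := torD_ne_zero (W := W) hp
  have hsub : {T : W.toAffine.Point | (2 * m + 1) • T = 0} ⊆
      {0} ∪ ⋃ r ∈ (torD W m).roots.toFinset, {T | T ≠ 0 ∧ xc T = r} := by
    intro T hT
    by_cases h0 : T = 0
    · exact Or.inl h0
    · refine Or.inr ?_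
      simp only [Set.mem_iUnion, Set.mem_setOf_eq, exists_prop]
      refine ⟨xc T, ?_, h0, rfl⟩
      rw [Multiset.mem_toFinset, mem_roots hD]
      exact (isRoot_torD_iff h0 m).mpr hT
  refine Set.Finite.subset ?_ hsub
  refine (Set.finite_singleton _).union ?_
  refine Set.Finite.biUnion (Finset.finite_toSet _) ?_
  intro r _
  obtain ⟨T₀, hT₀⟩ := exists_fibre_subset (W := W) r
  refine (Set.toFinite {T₀, -T₀}).subset ?_
  intro T hT
  rcases hT₀ T hT.1 hT.2 with h | h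
  · exact Or.inl h
  · exact Or.inr h

/-- **Counting**: there are at most `(2m+1)²` points killed by `2m+1`. -/
theorem ncard_torsion_le {m : ℕ} (hp : ((2 * m + 1 : ℕ) : K) ≠ 0) :
    {T : W.toAffine.Point | (2 * m + 1) • T = 0}.ncard ≤ (2 * m + 1) ^ 2 := by
  classical
  have hD := torD_ne_zero (W := W) hp
  have hfin := finite_torsion (W := W) hp
  set S : Set W.toAffine.Point := {T | (2 * m + 1) • T = 0} with hS
  -- nonzero torsion points
  have hfin' : (S \ {0}).Finite := hfin.subset Set.diff_subset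
  have hcard : (hfin'.toFinset).card ≤ 2 * (torD W m).roots.toFinset.card := by
    refine Finset.card_le_mul_card_image_of_maps_to (f := xc) ?_ 2 ?_
    · intro T hT
      rw [Set.Finite.mem_toFinset] at hT
      rw [Multiset.mem_toFinset, mem_roots hD]
      exact (isRoot_torD_iff hT.2 m).mpr hT.1
    · intro r _
      obtain ⟨T₀, hT₀⟩ := exists_fibre_subset (W := W) r
      refine (Finset.card_le_card (t := {T₀, -T₀}) ?_).trans Finset.card_le_two
      intro T hT
      rw [Finset.mem_filter, Set.Finite.mem_toFinset] at hT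
      rw [Finset.mem_insert, Finset.mem_singleton]
      exact hT₀ T hT.1.2 hT.2
  have hroots : (torD W m).roots.toFinset.card ≤ 2 * m ^ 2 + 2 * m :=
    (Multiset.toFinset_card_le _).trans ((card_roots' _).trans (natDegree_torD_le W m))
  have h1 : (S \ {0}).ncard ≤ 2 * (2 * m ^ 2 + 2 * m) := by
    rw [Set.ncard_eq_toFinset_card _ hfin']
    exact hcard.trans (Nat.mul_le_mul_left 2 hroots)
  have h2 : S.ncard ≤ (S \ {0}).ncard + 1 := by
    have := Set.ncard_diff_singleton_add_one (s := S) (a := 0) (by simp [hS]) hfin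
    omega
  calc S.ncard ≤ (S \ {0}).ncard + 1 := h2
    _ ≤ 2 * (2 * m ^ 2 + 2 * m) + 1 := by omega
    _ = (2 * m + 1) ^ 2 := by ring

end count

/-! ### existence of torsion over an algebraically closed field -/

section algClosed

variable [DecidableEq K] [IsAlgClosed K] [W.IsElliptic]

omit [DecidableEq K] in
/-- over an algebraically closed field every abscissa is the abscissa of a point. -/
theorem exists_point_xc (x₀ : K) : ∃ T : W.toAffine.Point, T ≠ 0 ∧ xc T = x₀ := by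
  obtain ⟨y₀, hy₀⟩ := IsAlgClosed.exists_root
    (X ^ 2 + C (W.a₁ * x₀ + W.a₃) * X - C (x₀ ^ 3 + W.a₂ * x₀ ^ 2 + W.a₄ * x₀ + W.a₆) : K[X])
    (by
      have : (X ^ 2 + C (W.a₁ * x₀ + W.a₃) * X -
          C (x₀ ^ 3 + W.a₂ * x₀ ^ 2 + W.a₄ * x₀ + W.a₆) : K[X]).degree = 2 := by
        compute_degree!
      rw [this]; norm_num)
  have heq : W.toAffine.Equation x₀ y₀ := by
    rw [WeierstrassCurve.Affine.equation_iff]
    simp only [IsRoot.def, eval_sub, eval_add, eval_pow, eval_X, eval_mul, eval_C] at hy₀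
    linear_combination hy₀
  have hns : W.toAffine.Nonsingular x₀ y₀ :=
    (WeierstrassCurve.Affine.equation_iff_nonsingular (W := W)).mp heq
  exact ⟨.some x₀ y₀ hns, WeierstrassCurve.Affine.Point.some_ne_zero _, rfl⟩

/-- full root characterisation over an algebraically closed field. -/
theorem isRoot_torD_iff_exists (m : ℕ) (x₀ : K) :
    (torD W m).IsRoot x₀ ↔
      ∃ T : W.toAffine.Point, T ≠ 0 ∧ (2 * m + 1) • T = 0 ∧ xc T = x₀ := by
  constructor
  · intro h
    obtain ⟨T, hT, hx⟩ := exists_point_xc (W := W) x₀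
    refine ⟨T, hT, ?_, hx⟩
    rw [← hx] at h
    exact (isRoot_torD_iff hT m).mp h
  · rintro ⟨T, hT, hp, rfl⟩
    exact (isRoot_torD_iff hT m).mpr hp

/-- **Existence of torsion**: for `m ≥ 1` and `2m+1` invertible in `K`, there is a nonzero
point killed by `2m+1`. -/
theorem exists_torsion_ne_zero {m : ℕ} (hm : 0 < m) (hp : ((2 * m + 1 : ℕ) : K) ≠ 0) :
    ∃ T : W.toAffine.Point, T ≠ 0 ∧ (2 * m + 1) • T = 0 := by
  have hdeg : (torD W m).degree ≠ 0 := by
    rw [degree_eq_natDegree (torD_ne_zero hp), natDegree_torD hp]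
    have : 0 < 2 * m ^ 2 + 2 * m := by positivity
    exact_mod_cast this.ne'
  obtain ⟨x₀, hx₀⟩ := IsAlgClosed.exists_root _ hdeg
  obtain ⟨T, hT, hpT, _⟩ := (isRoot_torD_iff_exists m x₀).mp hx₀
  exact ⟨T, hT, hpT⟩

end algClosed

end Fermat.Agent.S13.DP.LadderRoots
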