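import Mathlib
import Fermat.Agent.S13.XOnlyGen

/-!
# Abstract consumers of an `n`-torsion polynomial

Let `W` be a Weierstrass curve over a field `K` and `D : K[X]` a polynomial such that for every
affine point `P ≠ 0`:  `D.eval (xc P) = 0 ↔ n • P = 0`  (`IsTorsionPoly W n D`).  Then

* `exists_torsion`  : `K` algebraically closed, `W` elliptic, `0 < natDegree D` ⇒ there is a
  point `T ≠ 0` with `n • T = 0`;
* `finite_torsion`, `ncard_torsion_le`, `card_torsionBy_le` : the `n`-torsion is finite with at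
  most `2 * natDegree D + 1` elements;
* `valuation_leadingCoeff_mul_prod_le_one` : if the coefficients of `D` lie in a valuation
  subring `A`, then for distinct non-integral abscissae `r` of nonzero `n`-torsion points,
  `v (leadingCoeff D) * ∏ v r ≤ 1`.

The polynomial part (`IntCoeff`, `peel_root`, `peel_roots`, `valuation_prod_roots_le`) is
independent of elliptic curves.
-/

set_option autoImplicit false

namespace Fermat.Agent.S13.DP.RootsAbstract

open Polynomial Fermat.Agent.S13.XOnlyGen

section peel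

variable {K : Type*} [Field K] (A : ValuationSubring K)

/-- all coefficients lie in the valuation subring `A`. -/
def IntCoeff (f : K[X]) : Prop := ∀ i, f.coeff i ∈ A

variable {A}

/-- peeling a non-integral root off an integral polynomial:
if `f = (X - r) g` has coefficients in `A` and `r ∉ A`, then `r • g` has coefficients in `A`. -/
lemma peel_root {f g : K[X]} {r : K} (hf : IntCoeff A f) (hr : r ∉ A)
    (h : f = (X - C r) * g) : IntCoeff A (C r * g) := by
  have hrinv : r⁻¹ ∈ A := (A.mem_or_inv_mem r).resolve_left hr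
  have hr0 : r ≠ 0 := fun h0 => hr (h0 ▸ A.zero_mem)
  intro i
  induction i with
  | zero =>
    have h0 : f.coeff 0 = -(r * g.coeff 0) := by
      rw [h, mul_coeff_zero]
      simp
    rw [coeff_C_mul]
    have : r * g.coeff 0 = -f.coeff 0 := by rw [h0, neg_neg]
    rw [this]
    exact A.neg_mem _ (hf 0)
  | succ i ih =>
    rw [coeff_C_mul] at ih ⊢
    have h1 : f.coeff (i + 1) = g.coeff i - g.coeff (i + 1) * r := by
      rw [h, coeff_X_sub_C_mul]; ring
    have hgi : g.coeff i ∈ A := by
      have : g.coeff i = r⁻¹ * (r * g.coeff i) := by field_simp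
      rw [this]
      exact A.mul_mem _ _ hrinv ih
    have : r * g.coeff (i + 1) = g.coeff i - f.coeff (i + 1) := by rw [h1]; ring
    rw [this]
    exact sub_mem hgi (hf _)

/-- peeling a multiset of non-integral roots. -/
lemma peel_roots (s : Multiset K) (hs : ∀ r ∈ s, r ∉ A) :
    ∀ {f g : K[X]}, IntCoeff A f → f = (s.map fun r => X - C r).prod * g →
      IntCoeff A (C s.prod * g) := by
  induction s using Multiset.induction_on with
  | empty =>
    intro f g hf h
    simpa [h] using hf
  | cons r s ih =>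
    intro f g hf h
    have hr : r ∉ A := hs r (Multiset.mem_cons_self r s)
    have hs' : ∀ r ∈ s, r ∉ A := fun t ht => hs t (Multiset.mem_cons_of_mem ht)
    have h1 : f = (X - C r) * ((s.map fun r => X - C r).prod * g) := by
      rw [h, Multiset.map_cons, Multiset.prod_cons, mul_assoc]
    have h2 := peel_root hf hr h1
    have h3 : C r * ((s.map fun r => X - C r).prod * g) =
        (s.map fun r => X - C r).prod * (C r * g) := by ring
    have h4 := ih hs' h2 h3
    have h5 : C (r ::ₘ s).prod * g = C s.prod * (C r * g) := by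
      rw [Multiset.prod_cons, C_mul]; ring
    rw [h5]
    exact h4

/-- the product of the non-integral roots times the leading coefficient is integral. -/
lemma valuation_prod_roots_le {f : K[X]} (hf : IntCoeff A f) (s : Multiset K)
    (hs : ∀ r ∈ s, r ∉ A) (hdvd : (s.map fun r => X - C r).prod ∣ f) :
    A.valuation f.leadingCoeff * (s.map fun r => A.valuation r).prod ≤ 1 := by
  obtain ⟨g, hg⟩ := hdvd
  have hmonic : (s.map fun r => X - C r).prod.Monic :=
    monic_multiset_prod_of_monic _ _ fun r _ => monic_X_sub_C r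
  have hlc : f.leadingCoeff = g.leadingCoeff := by
    rw [hg, leadingCoeff_mul, hmonic.leadingCoeff, one_mul]
  have h1 := peel_roots s hs hf hg g.natDegree
  rw [coeff_C_mul, coeff_natDegree] at h1
  have h2 : A.valuation (s.prod * g.leadingCoeff) ≤ 1 := (A.valuation_le_one_iff _).mpr h1
  rw [map_mul] at h2
  have h3 : A.valuation s.prod = (s.map fun r => A.valuation r).prod := by
    rw [map_multiset_prod]
  rw [hlc, mul_comm, ← h3]
  exact h2

/-- `Finset` form: distinct non-integral roots. -/
lemma valuation_prod_finset_roots_le [DecidableEq K] {f : K[X]} (hf0 : f ≠ 0)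
    (hf : IntCoeff A f) (S : Finset K) (hroot : ∀ r ∈ S, f.eval r = 0) (hS : ∀ r ∈ S, r ∉ A) :
    A.valuation f.leadingCoeff * ∏ r ∈ S, A.valuation r ≤ 1 := by
  have hle : S.val ≤ f.roots := by
    rw [Multiset.le_iff_subset S.nodup]
    intro r hr
    exact (mem_roots hf0).mpr (hroot r hr)
  have hdvd := (Multiset.prod_X_sub_C_dvd_iff_le_roots hf0 S.val).mpr hle
  have := valuation_prod_roots_le hf S.val (fun r hr => hS r hr) hdvd
  rw [Finset.prod_eq_multiset_prod]
  exact this

end peel

section curve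

variable {K : Type*} [Field K] [DecidableEq K] {W : WeierstrassCurve K}

/-- `D` cuts out the abscissae of the nonzero `n`-torsion points. -/
structure IsTorsionPoly (W : WeierstrassCurve K) (n : ℕ) (D : K[X]) : Prop where
  ne_zero : D ≠ 0
  eval_eq_zero_iff : ∀ P : W.toAffine.Point, P ≠ 0 → (D.eval (xc P) = 0 ↔ n • P = 0)

variable {n : ℕ} {D : K[X]}

omit [DecidableEq K] in
/-- existence of an affine point with a prescribed abscissa over an algebraically closed
field. -/
lemma exists_point_of_xc [IsAlgClosed K] [W.IsElliptic] (x₀ : K) :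
    ∃ P : W.toAffine.Point, P ≠ 0 ∧ xc P = x₀ := by
  let q : K[X] := X ^ 2 + C (W.a₁ * x₀ + W.a₃) * X -
    C (x₀ ^ 3 + W.a₂ * x₀ ^ 2 + W.a₄ * x₀ + W.a₆)
  have hdeg : q.degree = 2 := by
    have h1 : (C (W.a₁ * x₀ + W.a₃) * X - C (x₀ ^ 3 + W.a₂ * x₀ ^ 2 + W.a₄ * x₀ + W.a₆) :
        K[X]).degree < 2 := by
      refine lt_of_le_of_lt (degree_sub_le _ _) ?_
      refine max_lt ?_ ?_
      · refine lt_of_le_of_lt (degree_C_mul_X_le _) ?_
        norm_num
      · refine lt_of_le_of_lt degree_C_le ?_
        norm_num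
    have : q = X ^ 2 + (C (W.a₁ * x₀ + W.a₃) * X -
        C (x₀ ^ 3 + W.a₂ * x₀ ^ 2 + W.a₄ * x₀ + W.a₆)) := by
      simp only [q]; ring
    rw [this, degree_add_eq_left_of_degree_lt]
    · simp
    · simpa using h1
  obtain ⟨y₀, hy₀⟩ := IsAlgClosed.exists_root q (by rw [hdeg]; norm_num)
  have heq : W.toAffine.Equation x₀ y₀ := by
    rw [WeierstrassCurve.Affine.equation_iff]
    have : y₀ ^ 2 + (W.a₁ * x₀ + W.a₃) * y₀ -
        (x₀ ^ 3 + W.a₂ * x₀ ^ 2 + W.a₄ * x₀ + W.a₆) = 0 := by
      simpa [q, IsRoot.def] using hy₀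
    linear_combination this
  have hns : W.toAffine.Nonsingular x₀ y₀ :=
    (WeierstrassCurve.Affine.equation_iff_nonsingular).mp heq
  exact ⟨WeierstrassCurve.Affine.Point.some x₀ y₀ hns, WeierstrassCurve.Affine.Point.some_ne_zero hns, rfl⟩

/-- **(T0)** existence of nonzero `n`-torsion. -/
theorem exists_torsion [IsAlgClosed K] [W.IsElliptic] (h : IsTorsionPoly W n D)
    (hdeg : 0 < D.natDegree) : ∃ T : W.toAffine.Point, T ≠ 0 ∧ n • T = 0 := by
  have hd : D.degree ≠ 0 := (natDegree_pos_iff_degree_pos.mp hdeg).ne'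
  obtain ⟨x₀, hx₀⟩ := IsAlgClosed.exists_root D hd
  obtain ⟨P, hP, hxP⟩ := exists_point_of_xc (W := W) x₀
  refine ⟨P, hP, (h.eval_eq_zero_iff P hP).mp ?_⟩
  rw [hxP]
  exact hx₀

/-- the fibre of `xc` over a point is finite (at most `0`, `T₀`, `-T₀`). -/
lemma finite_fibre_xc (b : K) : {T : W.toAffine.Point | xc T = b}.Finite := by
  by_cases hex : ∃ T₀ : W.toAffine.Point, T₀ ≠ 0 ∧ xc T₀ = b
  · obtain ⟨T₀, hT₀, hx₀⟩ := hex
    refine Set.Finite.subset (Set.toFinite {0, T₀, -T₀}) ?_
    intro T hT
    by_cases hT0 : T = 0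
    · simp [hT0]
    · have hx : xc T = xc T₀ := by rw [hx₀]; exact hT
      rcases eq_or_eq_neg_of_xc_eq hT0 hT₀ hx with h | h
      · simp [h]
      · simp [h]
  · refine Set.Finite.subset (Set.toFinite {0}) ?_
    intro T hT
    by_contra hT0
    exact hex ⟨T, hT0, hT⟩

/-- the set of nonzero points whose abscissa is a root of `D`. -/
lemma finite_rootPoints (hD : D ≠ 0) :
    {T : W.toAffine.Point | T ≠ 0 ∧ D.eval (xc T) = 0}.Finite := by
  have h1 : (xc (W := W) ⁻¹' (D.roots.toFinset : Set K)).Finite :=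
    Set.Finite.preimage' (Finset.finite_toSet _) fun b _ => finite_fibre_xc b
  refine h1.subset ?_
  intro T hT
  simp only [Set.mem_preimage, Finset.mem_coe, Multiset.mem_toFinset]
  exact (mem_roots hD).mpr hT.2

lemma ncard_rootPoints_le (hD : D ≠ 0) :
    {T : W.toAffine.Point | T ≠ 0 ∧ D.eval (xc T) = 0}.ncard ≤ 2 * D.natDegree := by
  classical
  have hfin := finite_rootPoints (W := W) hD
  rw [Set.ncard_eq_toFinset_card _ hfin]
  set B := hfin.toFinset with hB
  have hmem : ∀ T, T ∈ B ↔ T ≠ 0 ∧ D.eval (xc T) = 0 := fun T => by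
    rw [hB, Set.Finite.mem_toFinset]; rfl
  have h1 : B.card ≤ 2 * (B.image xc).card := by
    refine Finset.card_le_mul_card_image B 2 ?_
    intro a ha
    obtain ⟨T₀, hT₀B, hT₀a⟩ := Finset.mem_image.mp ha
    have hT₀ := (hmem T₀).mp hT₀B
    refine le_trans (Finset.card_le_card (t := {T₀, -T₀}) ?_) Finset.card_le_two
    intro T hT
    rw [Finset.mem_filter] at hT
    have hT' := (hmem T).mp hT.1
    have hx : xc T = xc T₀ := by rw [hT.2, hT₀a]
    rcases eq_or_eq_neg_of_xc_eq hT'.1 hT₀.1 hx with h | h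
    · simp [h]
    · simp [h]
  have h2 : (B.image xc).card ≤ D.natDegree := by
    have hsub : B.image xc ⊆ D.roots.toFinset := by
      intro a ha
      obtain ⟨T₀, hT₀B, hT₀a⟩ := Finset.mem_image.mp ha
      rw [Multiset.mem_toFinset, mem_roots hD, IsRoot.def, ← hT₀a]
      exact ((hmem T₀).mp hT₀B).2
    refine le_trans (Finset.card_le_card hsub) ?_
    exact le_trans (Multiset.toFinset_card_le _) (card_roots' D)
  omega

lemma torsion_subset (h : IsTorsionPoly W n D) :
    {T : W.toAffine.Point | n • T = 0} ⊆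
      insert 0 {T : W.toAffine.Point | T ≠ 0 ∧ D.eval (xc T) = 0} := by
  intro T hT
  by_cases hT0 : T = 0
  · exact Set.mem_insert_iff.mpr (Or.inl hT0)
  · exact Set.mem_insert_of_mem _ ⟨hT0, (h.eval_eq_zero_iff T hT0).mpr hT⟩

/-- **(C)** the `n`-torsion is finite. -/
theorem finite_torsion (h : IsTorsionPoly W n D) :
    {T : W.toAffine.Point | n • T = 0}.Finite :=
  ((finite_rootPoints h.ne_zero).insert 0).subset (torsion_subset h)

/-- **(C)** the `n`-torsion has at most `2 deg D + 1` elements. -/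
theorem ncard_torsion_le (h : IsTorsionPoly W n D) :
    {T : W.toAffine.Point | n • T = 0}.ncard ≤ 2 * D.natDegree + 1 := by
  have hfin := finite_rootPoints (W := W) h.ne_zero
  refine le_trans (Set.ncard_le_ncard (torsion_subset h) (hfin.insert 0)) ?_
  refine le_trans (Set.ncard_insert_le _ _) ?_
  have := ncard_rootPoints_le (W := W) h.ne_zero
  omega

lemma coe_torsionBy (n : ℕ) :
    ((Submodule.torsionBy ℤ W.toAffine.Point (n : ℤ) : Submodule ℤ W.toAffine.Point) :
      Set W.toAffine.Point) = {T : W.toAffine.Point | n • T = 0} := by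
  ext T
  rw [SetLike.mem_coe, Submodule.mem_torsionBy_iff, natCast_zsmul]
  exact Iff.rfl

/-- **(C)** in the shape of the frozen statements: `Submodule.torsionBy ℤ _ n`. -/
theorem finite_torsionBy (h : IsTorsionPoly W n D) :
    Finite (Submodule.torsionBy ℤ W.toAffine.Point (n : ℤ)) := by
  have := finite_torsion h
  rw [← coe_torsionBy] at this
  exact this.to_subtype

theorem card_torsionBy_le (h : IsTorsionPoly W n D) :
    Nat.card (Submodule.torsionBy ℤ W.toAffine.Point (n : ℤ)) ≤ 2 * D.natDegree + 1 := by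
  have h1 := ncard_torsion_le h
  rw [← coe_torsionBy] at h1
  rw [← Nat.card_coe_set_eq] at h1
  exact h1

/-- **(R)** root product bound: distinct non-integral abscissae of nonzero `n`-torsion
points. -/
theorem valuation_leadingCoeff_mul_prod_le_one (h : IsTorsionPoly W n D)
    (A : ValuationSubring K) (hA : IntCoeff A D) (S : Finset K)
    (hS : ∀ r ∈ S, ∃ T : W.toAffine.Point, T ≠ 0 ∧ n • T = 0 ∧ xc T = r)
    (hn : ∀ r ∈ S, r ∉ A) :
    A.valuation D.leadingCoeff * ∏ r ∈ S, A.valuation r ≤ 1 := by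
  refine valuation_prod_finset_roots_le h.ne_zero hA S ?_ hn
  intro r hr
  obtain ⟨T, hT0, hnT, hx⟩ := hS r hr
  rw [← hx]
  exact (h.eval_eq_zero_iff T hT0).mpr hnT

/-- **(R)** consumer shape: `∏ v r ≤ (v c)⁻¹` when `leadingCoeff D = c ≠ 0`. -/
theorem prod_valuation_le_inv (h : IsTorsionPoly W n D)
    (A : ValuationSubring K) (hA : IntCoeff A D) (S : Finset K)
    (hS : ∀ r ∈ S, ∃ T : W.toAffine.Point, T ≠ 0 ∧ n • T = 0 ∧ xc T = r)
    (hn : ∀ r ∈ S, r ∉ A) :
    ∏ r ∈ S, A.valuation r ≤ (A.valuation D.leadingCoeff)⁻¹ := by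
  have h1 := valuation_leadingCoeff_mul_prod_le_one h A hA S hS hn
  have hlc : A.valuation D.leadingCoeff ≠ 0 := by
    rw [ne_eq, map_eq_zero]
    exact leadingCoeff_ne_zero.mpr h.ne_zero
  have := (le_inv_mul_iff₀ (b := 1) (zero_lt_iff.mpr hlc)).mpr h1
  simpa using this

end curve

end Fermat.Agent.S13.DP.RootsAbstract
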