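import Mathlib
import Fermat.Agent.S13.DP.LadderDeg
import Fermat.Agent.S13.DP.RootsAbstract

/-!
# The root-product bound (Σ) from the ladder

For a Weierstrass curve `W` over a field `K` of characteristic zero and `p = 2m + 1`, the cross
polynomial `D_m` of the x-only ladder (`LadderDeg.ladD`) is an `IsTorsionPoly W p`, has leading
coefficient `p`, and has coefficients in every valuation subring containing the `b`-invariants.
Hence (Σ): for distinct non-integral abscissae `r` of nonzero `p`-torsion points,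
`∏ v r ≤ (v p)⁻¹`.
-/

set_option autoImplicit false

namespace Fermat.Agent.S13.DP.LadderSigma

open Polynomial Fermat.Agent.S13.XOnlyGen Fermat.Agent.S13.DP.Ladder
  Fermat.Agent.S13.DP.LadderDeg Fermat.Agent.S13.DP.RootsAbstract

section eval

variable {K : Type*} [Field K] (W : WeierstrassCurve K)

/-- the cross polynomial `D_m` attached to the curve. -/
noncomputable def torsPoly (m : ℕ) : K[X] := ladD W.b₂ W.b₄ W.b₆ W.b₈ m

lemma polyPar_map_eval (x₀ : K) :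
    (polyPar W.b₂ W.b₄ W.b₆ W.b₈).map (evalRingHom x₀) = par W x₀ := by
  simp [polyPar, Params.map, par]

lemma eval_ladP_Z (n : ℕ) (x₀ : K) :
    ((ladP W.b₂ W.b₄ W.b₆ W.b₈ n).Z₁).eval x₀ = (lad (par W x₀) n).Z₁ := by
  have h := map_lad (evalRingHom x₀) (polyPar W.b₂ W.b₄ W.b₆ W.b₈) n
  rw [polyPar_map_eval] at h
  have h2 := congrArg State.Z₁ h
  simpa [State.map, ladP] using h2

lemma eval_ladP_X (n : ℕ) (x₀ : K) :
    ((ladP W.b₂ W.b₄ W.b₆ W.b₈ n).X₁).eval x₀ = (lad (par W x₀) n).X₁ := by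
  have h := map_lad (evalRingHom x₀) (polyPar W.b₂ W.b₄ W.b₆ W.b₈) n
  rw [polyPar_map_eval] at h
  have h2 := congrArg State.X₁ h
  simpa [State.map, ladP] using h2

/-- degree and leading coefficient of `D_m` in characteristic zero. -/
lemma torsPoly_natDegree [CharZero K] (m : ℕ) :
    (torsPoly W m).natDegree = 2 * m ^ 2 + 2 * m ∧
      (torsPoly W m).leadingCoeff = ((2 * m + 1 : ℕ) : K) := by
  obtain ⟨h1, h2⟩ := lead_ladD W.b₂ W.b₄ W.b₆ W.b₈ m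
  have hne : (2 * (m : K) + 1) ≠ 0 := by
    have : ((2 * m + 1 : ℕ) : K) ≠ 0 := Nat.cast_ne_zero.mpr (by omega)
    simpa using this
  have hdeg : (torsPoly W m).natDegree = 2 * m ^ 2 + 2 * m := by
    refine le_antisymm h1 ?_
    refine le_natDegree_of_ne_zero ?_
    rw [torsPoly, h2]
    exact hne
  refine ⟨hdeg, ?_⟩
  rw [leadingCoeff, hdeg, torsPoly, h2]
  push_cast
  ring

lemma torsPoly_ne_zero [CharZero K] (m : ℕ) : torsPoly W m ≠ 0 := by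
  intro h0
  have h := (torsPoly_natDegree W m).2
  rw [h0, leadingCoeff_zero] at h
  have : ((2 * m + 1 : ℕ) : K) ≠ 0 := Nat.cast_ne_zero.mpr (by omega)
  exact this h.symm

variable [DecidableEq K]

/-- `D_m` cuts out the abscissae of the nonzero `(2m+1)`-torsion points. -/
theorem isTorsionPoly [CharZero K] (m : ℕ) : IsTorsionPoly W (2 * m + 1) (torsPoly W m) where
  ne_zero := torsPoly_ne_zero W m
  eval_eq_zero_iff := fun P hP => by
    rw [← ladZ_eq_zero_iff hP (2 * m + 1), ← eval_ladP_Z, ladP_odd_Z, eval_pow,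
      pow_eq_zero_iff two_ne_zero]
    rfl

end eval

section integral

variable {K : Type*} [Field K] (W : WeierstrassCurve K) (A : ValuationSubring K)

/-- the cross polynomial has coefficients in every valuation subring containing the
`b`-invariants. -/
theorem intCoeff_torsPoly (hb₂ : W.b₂ ∈ A) (hb₄ : W.b₄ ∈ A) (hb₆ : W.b₆ ∈ A) (hb₈ : W.b₈ ∈ A)
    (m : ℕ) : IntCoeff A (torsPoly W m) := by
  let φ : (A : Type _)[X] →+* K[X] := Polynomial.mapRingHom A.subtype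
  have hpar : (polyPar (⟨W.b₂, hb₂⟩ : A) ⟨W.b₄, hb₄⟩ ⟨W.b₆, hb₆⟩ ⟨W.b₈, hb₈⟩).map φ =
      polyPar W.b₂ W.b₄ W.b₆ W.b₈ := by
    simp [polyPar, Params.map, φ]
  have h := map_lad φ (polyPar (⟨W.b₂, hb₂⟩ : A) ⟨W.b₄, hb₄⟩ ⟨W.b₆, hb₆⟩ ⟨W.b₈, hb₈⟩) m
  rw [hpar] at h
  have hD : torsPoly W m =
      φ (ladD (⟨W.b₂, hb₂⟩ : A) ⟨W.b₄, hb₄⟩ ⟨W.b₆, hb₆⟩ ⟨W.b₈, hb₈⟩ m) := by
    have hX₁ := congrArg State.X₁ h
    have hZ₁ := congrArg State.Z₁ h
    have hX₂ := congrArg State.X₂ h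
    have hZ₂ := congrArg State.Z₂ h
    simp only [State.map] at hX₁ hZ₁ hX₂ hZ₂
    simp only [torsPoly, ladD, ladP, map_sub, map_mul, hX₁, hZ₁, hX₂, hZ₂]
  intro i
  rw [hD]
  simp only [φ, Polynomial.coe_mapRingHom, Polynomial.coeff_map]
  exact (ladD (⟨W.b₂, hb₂⟩ : A) ⟨W.b₄, hb₄⟩ ⟨W.b₆, hb₆⟩ ⟨W.b₈, hb₈⟩ m).coeff i |>.2

end integral

section sigma

variable {K : Type*} [Field K] [DecidableEq K] [CharZero K] (W : WeierstrassCurve K)
  (A : ValuationSubring K)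

/-- **(Σ)** for `p = 2m + 1`. -/
theorem sigma_two_mul_add_one (hb₂ : W.b₂ ∈ A) (hb₄ : W.b₄ ∈ A) (hb₆ : W.b₆ ∈ A)
    (hb₈ : W.b₈ ∈ A) (m : ℕ) (S : Finset K)
    (hS : ∀ r ∈ S, ∃ T : W.toAffine.Point, T ≠ 0 ∧ (2 * m + 1) • T = 0 ∧ xc T = r)
    (hn : ∀ r ∈ S, r ∉ A) :
    ∏ r ∈ S, A.valuation r ≤ (A.valuation ((2 * m + 1 : ℕ) : K))⁻¹ := by
  have h := prod_valuation_le_inv (isTorsionPoly W m) A
    (intCoeff_torsPoly W A hb₂ hb₄ hb₆ hb₈ m) S hS hn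
  rwa [(torsPoly_natDegree W m).2] at h

/-- **(Σ)**: for an odd `p`, a valuation subring `A` containing the `b`-invariants of `W`, and
distinct non-integral abscissae `r` of nonzero `p`-torsion points: `∏ v r ≤ (v p)⁻¹`. -/
theorem sigma (hb₂ : W.b₂ ∈ A) (hb₄ : W.b₄ ∈ A) (hb₆ : W.b₆ ∈ A) (hb₈ : W.b₈ ∈ A)
    {p : ℕ} (hp : Odd p) (S : Finset K)
    (hS : ∀ r ∈ S, ∃ T : W.toAffine.Point, T ≠ 0 ∧ p • T = 0 ∧ xc T = r)
    (hn : ∀ r ∈ S, r ∉ A) :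
    ∏ r ∈ S, A.valuation r ≤ (A.valuation (p : K))⁻¹ := by
  obtain ⟨m, rfl⟩ := hp
  exact sigma_two_mul_add_one W A hb₂ hb₄ hb₆ hb₈ m S hS hn

/-- `b`-invariants from `a`-invariants. -/
theorem sigma_of_a_mem (ha₁ : W.a₁ ∈ A) (ha₂ : W.a₂ ∈ A) (ha₃ : W.a₃ ∈ A) (ha₄ : W.a₄ ∈ A)
    (ha₆ : W.a₆ ∈ A) {p : ℕ} (hp : Odd p) (S : Finset K)
    (hS : ∀ r ∈ S, ∃ T : W.toAffine.Point, T ≠ 0 ∧ p • T = 0 ∧ xc T = r)
    (hn : ∀ r ∈ S, r ∉ A) :
    ∏ r ∈ S, A.valuation r ≤ (A.valuation (p : K))⁻¹ := by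
  have h2 : (2 : K) ∈ A := by
    have : (2 : K) = 1 + 1 := by norm_num
    rw [this]; exact add_mem A.one_mem A.one_mem
  have h4 : (4 : K) ∈ A := by
    have : (4 : K) = 2 * 2 := by norm_num
    rw [this]; exact mul_mem h2 h2
  refine sigma W A ?_ ?_ ?_ ?_ hp S hS hn
  · rw [WeierstrassCurve.b₂]
    exact add_mem (pow_mem ha₁ 2) (mul_mem h4 ha₂)
  · rw [WeierstrassCurve.b₄]
    exact add_mem (mul_mem h2 ha₄) (mul_mem ha₁ ha₃)
  · rw [WeierstrassCurve.b₆]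
    exact add_mem (pow_mem ha₃ 2) (mul_mem h4 ha₆)
  · rw [WeierstrassCurve.b₈]
    refine sub_mem (add_mem (sub_mem (add_mem ?_ ?_) ?_) ?_) ?_
    · exact mul_mem (pow_mem ha₁ 2) ha₆
    · exact mul_mem (mul_mem h4 ha₂) ha₆
    · exact mul_mem (mul_mem ha₁ ha₃) ha₄
    · exact mul_mem ha₂ (pow_mem ha₃ 2)
    · exact pow_mem ha₄ 2

end sigma

end Fermat.Agent.S13.DP.LadderSigma
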